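import Fermat.Agent.S14.Spec

/-!
# S14, block ND (hedge, helper285): `δ` is not a `p`-th power in `K = ℚ(ζ_p)`, `p ≥ 5`

Method: ring hom `Ψ : 𝓞 K → DualNumber (𝔽_p[t]/(t²))`, `ζ ↦ 1 + t + ε`.
A `p`-th power has vanishing `ε`-part, while the `ε`-part of the image of
`E₂ = ∏_b (1 + ζ + ⋯ + ζ^(b-1))^(b^(p-3))` is `-(t/12)·(unit)`.
-/

set_option autoImplicit false

open Polynomial NumberField

namespace Fermat.Agent.S14.H285

noncomputable section

variable (p : ℕ) [hp : Fact p.Prime]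

/-- The ring `𝔽_p[t]/(t²)`. -/
abbrev A : Type := AdjoinRoot ((X : (ZMod p)[X]) ^ 2)

/-- The class of `t`. -/
def t : A p := AdjoinRoot.root _

lemma t_sq : t p ^ 2 = 0 := by
  have := AdjoinRoot.eval₂_root ((X : (ZMod p)[X]) ^ 2)
  simpa [t] using this

lemma t_ne_zero : t p ≠ 0 := by
  intro h
  have h1 : AdjoinRoot.mk ((X : (ZMod p)[X]) ^ 2) X = 0 := by
    simpa [t] using h
  rw [AdjoinRoot.mk_eq_zero] at h1
  have h2 := Polynomial.degree_le_of_dvd h1 X_ne_zero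
  rw [degree_X_pow, degree_X] at h2
  norm_num at h2

lemma natCast_self : ((p : ℕ) : A p) = 0 := by
  have h : algebraMap (ZMod p) (A p) ((p : ℕ) : ZMod p) = 0 := by
    rw [ZMod.natCast_self, map_zero]
  rwa [map_natCast] at h

lemma isUnit_natCast {n : ℕ} (hn : ¬ p ∣ n) : IsUnit ((n : ℕ) : A p) := by
  have h1 : ((n : ℕ) : ZMod p) ≠ 0 := by
    rwa [Ne, ZMod.natCast_eq_zero_iff]
  have h2 : IsUnit (algebraMap (ZMod p) (A p) ((n : ℕ) : ZMod p)) :=
    (IsUnit.mk0 _ h1).map _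
  rwa [map_natCast] at h2

/-- The dual numbers over `𝔽_p[t]/(t²)`. -/
abbrev B : Type := DualNumber (A p)

/-- `z = 1 + t + ε`. -/
def z : B p := TrivSqZeroExt.inl (1 + t p) + TrivSqZeroExt.inr 1

lemma fst_z : TrivSqZeroExt.fst (z p) = 1 + t p := by simp [z]

lemma snd_z : TrivSqZeroExt.snd (z p) = 1 := by simp [z]

lemma fst_z_pow (i : ℕ) : TrivSqZeroExt.fst (z p ^ i) = 1 + (i : A p) * t p := by
  induction i with
  | zero => simp
  | succ i ih =>
    rw [pow_succ, TrivSqZeroExt.fst_mul, ih, fst_z]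
    push_cast
    linear_combination (i : A p) * t_sq p

lemma snd_z_pow (i : ℕ) :
    TrivSqZeroExt.snd (z p ^ i) = (i : A p) + (i : A p) * ((i : A p) - 1) * t p := by
  induction i with
  | zero => simp
  | succ i ih =>
    rw [pow_succ, TrivSqZeroExt.snd_mul, ih, fst_z, snd_z, fst_z_pow]
    simp only [smul_eq_mul, MulOpposite.smul_eq_mul_unop, MulOpposite.unop_op]
    push_cast
    linear_combination ((i : A p) * ((i : A p) - 1)) * t_sq p

/-- `U b = 1 + z + ⋯ + z^(b-1)`. -/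
def U (b : ℕ) : B p := ∑ i ∈ Finset.range b, z p ^ i

lemma two_mul_fst_U (b : ℕ) :
    2 * TrivSqZeroExt.fst (U p b) = 2 * (b : A p) + (b : A p) * ((b : A p) - 1) * t p := by
  induction b with
  | zero => simp [U]
  | succ b ih =>
    have : U p (b + 1) = U p b + z p ^ b := by
      simp [U, Finset.sum_range_succ]
    rw [this, TrivSqZeroExt.fst_add, mul_add, ih, fst_z_pow]
    push_cast
    ring

lemma six_mul_snd_U (b : ℕ) :
    6 * TrivSqZeroExt.snd (U p b) = 3 * (b : A p) * ((b : A p) - 1)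
      + 2 * (b : A p) * ((b : A p) - 1) * ((b : A p) - 2) * t p := by
  induction b with
  | zero => simp [U]
  | succ b ih =>
    have : U p (b + 1) = U p b + z p ^ b := by
      simp [U, Finset.sum_range_succ]
    rw [this, TrivSqZeroExt.snd_add, mul_add, ih, snd_z_pow]
    push_cast
    ring

omit hp in
lemma not_dvd_of_lt {n : ℕ} (hn0 : 0 < n) (hn : n < p) : ¬ p ∣ n :=
  fun h => absurd (Nat.le_of_dvd hn0 h) (not_le.mpr hn)

lemma U_self (h5 : 5 ≤ p) : U p p = 0 := by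
  have h2 : IsUnit ((2 : ℕ) : A p) := isUnit_natCast p (not_dvd_of_lt p (by norm_num) (by omega))
  have h6 : IsUnit ((6 : ℕ) : A p) := by
    apply isUnit_natCast
    intro h
    have h' : p ∣ 2 * 3 := by simpa using h
    rcases (Nat.Prime.dvd_mul hp.out).mp h' with h | h
    · exact not_dvd_of_lt p (by norm_num) (by omega) h
    · exact not_dvd_of_lt p (by norm_num) (by omega) h
  have hF := two_mul_fst_U p p
  have hS := six_mul_snd_U p p
  rw [natCast_self] at hF hS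
  simp only [zero_mul, mul_zero, add_zero] at hF hS
  have hF' : TrivSqZeroExt.fst (U p p) = 0 := by
    have : ((2 : ℕ) : A p) * TrivSqZeroExt.fst (U p p) = 0 := by exact_mod_cast hF
    exact (h2.mul_right_eq_zero).mp this
  have hS' : TrivSqZeroExt.snd (U p p) = 0 := by
    have : ((6 : ℕ) : A p) * TrivSqZeroExt.snd (U p p) = 0 := by exact_mod_cast hS
    exact (h6.mul_right_eq_zero).mp this
  exact TrivSqZeroExt.ext hF' hS'

/-! ### The relation "24 · snd x = d · fst x" -/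

/-- `Rel x d` : `24 * snd x = d * fst x` ("`d/24` is the logarithmic derivative of `x`"). -/
def Rel (x : B p) (d : A p) : Prop :=
  24 * TrivSqZeroExt.snd x = d * TrivSqZeroExt.fst x

lemma rel_one : Rel p 1 0 := by simp [Rel]

lemma rel_mul {x y : B p} {d e : A p} (hx : Rel p x d) (hy : Rel p y e) :
    Rel p (x * y) (d + e) := by
  unfold Rel at *
  rw [TrivSqZeroExt.snd_mul, TrivSqZeroExt.fst_mul]
  simp only [smul_eq_mul, MulOpposite.smul_eq_mul_unop, MulOpposite.unop_op]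
  linear_combination (TrivSqZeroExt.fst y) * hx + (TrivSqZeroExt.fst x) * hy

lemma rel_pow {x : B p} {d : A p} (hx : Rel p x d) (n : ℕ) : Rel p (x ^ n) ((n : A p) * d) := by
  induction n with
  | zero => simpa using rel_one p
  | succ n ih =>
    rw [pow_succ]
    have := rel_mul p ih hx
    convert this using 1
    push_cast
    ring

lemma rel_prod {ι : Type*} (s : Finset ι) (x : ι → B p) (d : ι → A p)
    (h : ∀ i ∈ s, Rel p (x i) (d i)) : Rel p (∏ i ∈ s, x i) (∑ i ∈ s, d i) := by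
  classical
  induction s using Finset.induction_on with
  | empty => simpa using rel_one p
  | insert a s ha ih =>
    rw [Finset.prod_insert ha, Finset.sum_insert ha]
    exact rel_mul p (h a (Finset.mem_insert_self a s))
      (ih fun i hi => h i (Finset.mem_insert_of_mem hi))

/-- The logarithmic derivative of `U b`. -/
def D (b : ℕ) : A p :=
  12 * ((b : A p) - 1) + 2 * ((b : A p) - 1) * ((b : A p) - 5) * t p

lemma rel_U (b : ℕ) : Rel p (U p b) (D p b) := by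
  unfold Rel D
  have hF := two_mul_fst_U p b
  have hS := six_mul_snd_U p b
  linear_combination 4 * hS
    - (6 * ((b : A p) - 1) + ((b : A p) - 1) * ((b : A p) - 5) * t p) * hF
    - ((b : A p) * ((b : A p) - 1) * ((b : A p) - 1) * ((b : A p) - 5)) * t_sq p

lemma snd_pow_self (w : B p) : TrivSqZeroExt.snd (w ^ p) = 0 := by
  rw [TrivSqZeroExt.snd_pow]
  rw [← Nat.cast_smul_eq_nsmul (A p), natCast_self, zero_smul]

lemma isUnit_fst_U {b : ℕ} (hb0 : 0 < b) (hb : b < p) (h5 : 5 ≤ p) :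
    IsUnit (TrivSqZeroExt.fst (U p b)) := by
  have h4b : IsUnit ((4 * b : ℕ) : A p) := by
    apply isUnit_natCast
    intro h
    rcases (Nat.Prime.dvd_mul hp.out).mp h with h | h
    · exact not_dvd_of_lt p (by norm_num) (by omega) h
    · exact not_dvd_of_lt p hb0 hb h
  have hF := two_mul_fst_U p b
  have key : TrivSqZeroExt.fst (U p b) * (2 * (2 - ((b : A p) - 1) * t p)) = ((4 * b : ℕ) : A p) := by
    push_cast
    linear_combination (2 - ((b : A p) - 1) * t p) * hF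
      - ((b : A p) * ((b : A p) - 1) * ((b : A p) - 1)) * t_sq p
  exact isUnit_of_mul_isUnit_left (key ▸ h4b)


/-! ### Power sums -/

section PowerSums

lemma sum_range_zmod {M : Type*} [AddCommMonoid M] (f : ZMod p → M) :
    ∑ b ∈ Finset.range p, f (b : ZMod p) = ∑ x : ZMod p, f x := by
  haveI : NeZero p := ⟨hp.out.ne_zero⟩
  refine Finset.sum_nbij' (fun b => (b : ZMod p)) ZMod.val ?_ ?_ ?_ ?_ ?_
  · intro b _; exact Finset.mem_univ _
  · intro x _; exact Finset.mem_range.mpr (ZMod.val_lt x)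
  · intro b hb; exact ZMod.val_natCast_of_lt (Finset.mem_range.mp hb)
  · intro x _; exact ZMod.natCast_zmod_val x
  · intro b _; rfl

lemma sum_Icc_eq_sum_range {M : Type*} [AddCommMonoid M] (f : ℕ → M) (h0 : f 0 = 0) :
    ∑ b ∈ Finset.Icc 1 (p - 1), f b = ∑ b ∈ Finset.range p, f b := by
  have hpos := hp.out.pos
  have h1 : Finset.Icc 1 (p - 1) = Finset.Ico 1 p := by
    ext b
    simp only [Finset.mem_Icc, Finset.mem_Ico]
    omega
  rw [h1, Finset.range_eq_Ico, Finset.sum_eq_sum_Ico_succ_bot hpos, h0, zero_add]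

lemma powsum_zmod {k : ℕ} (hk0 : 0 < k) (hk : k < p - 1) :
    ∑ b ∈ Finset.Icc 1 (p - 1), ((b : ℕ) : ZMod p) ^ k = 0 := by
  rw [sum_Icc_eq_sum_range p (fun b => ((b : ℕ) : ZMod p) ^ k) (by simp [hk0.ne'])]
  rw [sum_range_zmod p (fun x => x ^ k)]
  apply FiniteField.sum_pow_lt_card_sub_one
  rwa [ZMod.card]

lemma powsum_zmod_top :
    ∑ b ∈ Finset.Icc 1 (p - 1), ((b : ℕ) : ZMod p) ^ (p - 1) = -1 := by
  have h : ∀ b ∈ Finset.Icc 1 (p - 1), ((b : ℕ) : ZMod p) ^ (p - 1) = 1 := by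
    intro b hb
    apply ZMod.pow_card_sub_one_eq_one
    rw [Ne, ZMod.natCast_eq_zero_iff]
    have hpos := hp.out.pos
    rw [Finset.mem_Icc] at hb
    exact not_dvd_of_lt p (by omega) (by omega)
  rw [Finset.sum_congr rfl h]
  have hpos := hp.out.pos
  simp only [Finset.sum_const, Nat.card_Icc, nsmul_eq_mul, mul_one]
  have : p - 1 + 1 - 1 = p - 1 := by omega
  rw [this, Nat.cast_sub hpos, ZMod.natCast_self]
  simp

lemma powsum_A {k : ℕ} (hk0 : 0 < k) (hk : k < p - 1) :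
    ∑ b ∈ Finset.Icc 1 (p - 1), ((b : ℕ) : A p) ^ k = 0 := by
  have h := congrArg (algebraMap (ZMod p) (A p)) (powsum_zmod p hk0 hk)
  simpa only [map_sum, map_pow, map_natCast, map_zero] using h

lemma powsum_A_top :
    ∑ b ∈ Finset.Icc 1 (p - 1), ((b : ℕ) : A p) ^ (p - 1) = -1 := by
  have h := congrArg (algebraMap (ZMod p) (A p)) (powsum_zmod_top p)
  simpa only [map_sum, map_pow, map_natCast, map_neg, map_one] using h

lemma dvd_powsum (h5 : 5 ≤ p) : p ∣ ∑ b ∈ Finset.Icc 1 (p - 1), b ^ (p - 3) := by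
  rw [← ZMod.natCast_eq_zero_iff]
  push_cast
  exact powsum_zmod p (by omega) (by omega)

lemma sum_D (h5 : 5 ≤ p) :
    ∑ b ∈ Finset.Icc 1 (p - 1), ((b ^ (p - 3) : ℕ) : A p) * D p b = -2 * t p := by
  have e : ∀ b : ℕ, ((b ^ (p - 3) : ℕ) : A p) * D p b
      = 12 * ((b : A p) ^ (p - 2) - (b : A p) ^ (p - 3))
        + 2 * ((b : A p) ^ (p - 1) - 6 * (b : A p) ^ (p - 2) + 5 * (b : A p) ^ (p - 3)) * t p := by
    intro b
    have h2 : p - 2 = (p - 3) + 1 := by omega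
    have h1 : p - 1 = (p - 3) + 2 := by omega
    rw [h2, h1]
    unfold D
    push_cast
    ring
  simp only [e, Finset.sum_add_distrib, ← Finset.mul_sum, ← Finset.sum_mul,
    Finset.sum_sub_distrib]
  rw [powsum_A p (k := p - 2) (by omega) (by omega),
    powsum_A p (k := p - 3) (by omega) (by omega), powsum_A_top p]
  ring

end PowerSums

/-! ### The ring homomorphism `Ψ` -/

section Hom

variable {p}
variable {K : Type} [Field K] [NumberField K] [IsCyclotomicExtension {p} ℚ K]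
  {ζ : K} (hζ : IsPrimitiveRoot ζ p)

omit [IsCyclotomicExtension {p} ℚ K] in
lemma minpoly_toInteger_eq :
    haveI : NeZero p := ⟨hp.out.ne_zero⟩
    minpoly ℤ hζ.toInteger = ∑ i ∈ Finset.range p, X ^ i := by
  haveI : NeZero p := ⟨hp.out.ne_zero⟩
  have h : ((hζ.toInteger : 𝓞 K) : K) = ζ := hζ.coe_toInteger
  rw [← RingOfIntegers.minpoly_coe, h, ← cyclotomic_eq_minpoly hζ hp.out.pos,
    cyclotomic_prime ℤ p]

lemma aeval_minpoly_gen_eq (h5 : 5 ≤ p) :
    haveI : NeZero p := ⟨hp.out.ne_zero⟩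
    aeval (z p) (minpoly ℤ hζ.integralPowerBasis.gen) = 0 := by
  haveI : NeZero p := ⟨hp.out.ne_zero⟩
  rw [hζ.integralPowerBasis_gen, minpoly_toInteger_eq hζ]
  simp only [map_sum, map_pow, aeval_X]
  exact U_self p h5

/-- The ring homomorphism `𝓞 K → DualNumber (𝔽_p[t]/(t²))`, `ζ ↦ 1 + t + ε`. -/
def Psi (h5 : 5 ≤ p) : 𝓞 K →ₐ[ℤ] B p :=
  haveI : NeZero p := ⟨hp.out.ne_zero⟩
  hζ.integralPowerBasis.lift (z p) (aeval_minpoly_gen_eq hζ h5)

lemma Psi_zeta (h5 : 5 ≤ p) :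
    haveI : NeZero p := ⟨hp.out.ne_zero⟩
    Psi hζ h5 hζ.toInteger = z p := by
  haveI : NeZero p := ⟨hp.out.ne_zero⟩
  have h := hζ.integralPowerBasis.lift_gen (z p) (aeval_minpoly_gen_eq hζ h5)
  have h2 : hζ.integralPowerBasis.gen = hζ.toInteger := hζ.integralPowerBasis_gen
  unfold Psi
  rw [← h2]
  exact h

/-- The "unit part" `E₂ = ∏_b (1 + ζ + ⋯ + ζ^(b-1))^(b^(p-3))` is not a `p`-th power in `𝓞 K`. -/
theorem E2_not_pow (h5 : 5 ≤ p) (y : 𝓞 K) :
    haveI : NeZero p := ⟨hp.out.ne_zero⟩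
    y ^ p ≠ ∏ b ∈ Finset.Icc 1 (p - 1),
      (∑ i ∈ Finset.range b, hζ.toInteger ^ i) ^ (b ^ (p - 3)) := by
  haveI : NeZero p := ⟨hp.out.ne_zero⟩
  intro h
  have h1 := congrArg (Psi hζ h5) h
  simp only [map_pow, map_prod, map_sum, Psi_zeta] at h1
  have h1' : Psi hζ h5 y ^ p = ∏ b ∈ Finset.Icc 1 (p - 1), U p b ^ (b ^ (p - 3)) := h1
  have hrel : Rel p (∏ b ∈ Finset.Icc 1 (p - 1), U p b ^ (b ^ (p - 3)))
      (∑ b ∈ Finset.Icc 1 (p - 1), ((b ^ (p - 3) : ℕ) : A p) * D p b) :=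
    rel_prod p _ _ _ (fun b _ => rel_pow p (rel_U p b) _)
  rw [sum_D p h5] at hrel
  unfold Rel at hrel
  have hsnd : TrivSqZeroExt.snd (∏ b ∈ Finset.Icc 1 (p - 1), U p b ^ (b ^ (p - 3))) = 0 := by
    rw [← h1']
    exact snd_pow_self p _
  rw [hsnd, mul_zero] at hrel
  have hunit : IsUnit (TrivSqZeroExt.fst (∏ b ∈ Finset.Icc 1 (p - 1), U p b ^ (b ^ (p - 3)))) := by
    have : TrivSqZeroExt.fst (∏ b ∈ Finset.Icc 1 (p - 1), U p b ^ (b ^ (p - 3)))
        = ∏ b ∈ Finset.Icc 1 (p - 1), TrivSqZeroExt.fst (U p b) ^ (b ^ (p - 3)) := by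
      have := map_prod (TrivSqZeroExt.fstHom (A p) (A p) (A p))
        (fun b => U p b ^ (b ^ (p - 3))) (Finset.Icc 1 (p - 1))
      simpa only [TrivSqZeroExt.fstHom_apply, TrivSqZeroExt.fst_pow] using this
    rw [this, IsUnit.prod_iff]
    intro b hb
    rw [Finset.mem_Icc] at hb
    have hpos := hp.out.pos
    exact (isUnit_fst_U p (by omega) (by omega) h5).pow _
  have h2 : IsUnit ((2 : ℕ) : A p) := isUnit_natCast p (not_dvd_of_lt p (by norm_num) (by omega))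
  have ht : ((2 : ℕ) : A p) * t p = 0 := by
    apply (hunit.mul_left_eq_zero).mp
    push_cast
    linear_combination hrel
  exact t_ne_zero p ((h2.mul_right_eq_zero).mp ht)

/-- Factorisation `∏_b (ζ^b - 1)^(e_b) = E₂ · (ζ - 1)^(Σ e_b)`. -/
lemma prod_eq_E2_mul {R : Type*} [CommRing R] (x : R) (s : Finset ℕ) (e : ℕ → ℕ) :
    ∏ b ∈ s, (x ^ b - 1) ^ (e b)
      = (∏ b ∈ s, (∑ i ∈ Finset.range b, x ^ i) ^ (e b)) * (x - 1) ^ (∑ b ∈ s, e b) := by
  rw [← Finset.prod_pow_eq_pow_sum, ← Finset.prod_mul_distrib]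
  refine Finset.prod_congr rfl fun b _ => ?_
  rw [← mul_pow, geom_sum_mul]

/-- `δ(ζ) = ∏_b (ζ^b - 1)^(b^(p-3))` is not a `p`-th power in `K` (general primitive root). -/
theorem prod_not_pow (h5 : 5 ≤ p) (x : K) :
    haveI : NeZero p := ⟨hp.out.ne_zero⟩
    (((∏ b ∈ Finset.Icc 1 (p - 1), (hζ.toInteger ^ b - 1) ^ (b ^ (p - 3)) : 𝓞 K)) : K) ≠ x ^ p := by
  haveI : NeZero p := ⟨hp.out.ne_zero⟩
  intro h
  obtain ⟨M, hM⟩ := dvd_powsum p h5
  rw [prod_eq_E2_mul, hM, pow_mul'] at h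
  set E : 𝓞 K := ∏ b ∈ Finset.Icc 1 (p - 1),
      (∑ i ∈ Finset.range b, hζ.toInteger ^ i) ^ (b ^ (p - 3)) with hE
  have hlam : (hζ.toInteger - 1 : 𝓞 K) ≠ 0 := by
    rw [sub_ne_zero]
    exact hζ.toInteger_isPrimitiveRoot.ne_one hp.out.one_lt
  have hlamK : (((hζ.toInteger - 1 : 𝓞 K) ^ M : 𝓞 K) : K) ≠ 0 := by
    rw [Ne, RingOfIntegers.coe_eq_zero_iff]
    exact pow_ne_zero _ hlam
  have h' : ((E : 𝓞 K) : K) * (((hζ.toInteger - 1 : 𝓞 K) ^ M : 𝓞 K) : K) ^ p = x ^ p := by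
    rw [← h]
    simp only [map_mul, map_pow]
  have hy : (x / (((hζ.toInteger - 1 : 𝓞 K) ^ M : 𝓞 K) : K)) ^ p = ((E : 𝓞 K) : K) := by
    rw [div_pow, ← h', mul_div_assoc, div_self (pow_ne_zero _ hlamK), mul_one]
  have hint : IsIntegral (𝓞 K) ((x / (((hζ.toInteger - 1 : 𝓞 K) ^ M : 𝓞 K) : K)) ^ p) := by
    rw [hy]
    exact isIntegral_algebraMap
  obtain ⟨y, hy'⟩ := IsIntegrallyClosed.exists_algebraMap_eq_of_isIntegral_pow
    (R := 𝓞 K) (K := K) hp.out.pos hint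
  apply E2_not_pow hζ h5 y
  apply RingOfIntegers.coe_injective
  rw [← hE, map_pow, hy', hy]

end Hom

/-- **Block ND** in the shape of `Spec`: `δ` is not a `p`-th power in `K`. -/
theorem delta_not_pow (p : ℕ) [Fact p.Prime] (h5 : 5 ≤ p) (K : Type) [Field K] [NumberField K]
    [IsCyclotomicExtension {p} ℚ K] :
    ¬ ∃ x : K, ((Spec.delta p K : 𝓞 K) : K) = x ^ p := by
  haveI : NeZero p := Spec.neZero p
  rintro ⟨x, hx⟩
  exact prod_not_pow (IsCyclotomicExtension.zeta_spec p ℚ K) h5 x hx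

/-- **Block ND**, integral form: `δ` is not a `p`-th power in `𝓞 K`. -/
theorem delta_not_pow_int (p : ℕ) [Fact p.Prime] (h5 : 5 ≤ p) (K : Type) [Field K]
    [NumberField K] [IsCyclotomicExtension {p} ℚ K] :
    ¬ ∃ x : 𝓞 K, x ^ p = Spec.delta p K := by
  rintro ⟨x, hx⟩
  exact delta_not_pow p h5 K ⟨(x : K), by rw [← hx]; push_cast; rfl⟩

end

end Fermat.Agent.S14.H285

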